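/-
T1b / U2Lower50 (helper50): the operator `U_p` lowers the level when `p ^ 2 ∣ N`:
`U_p : S_k(Γ₀(N)) → S_k(Γ₀(N / p))`.  Consequently a normalised eigenform of level `N` with
`a_p ≠ 0` (and `p ^ 2 ∣ N`) is a normalised eigenform of level `N / p`.

Used for the descent from the auxiliary level `4 M'` (two-chart models need `4 ∣ level`) back to
the true level in row 38 (S39/S40/S44).
-/
import Mathlib
import Fermat.Prelude.Def_ModularForm_HeckeOperatorForms
import Fermat.Prelude.Thm_ModularForm_mdifferentiable_heckeU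
import Fermat.Prelude.Thm_CuspFormClass_isZeroAt_heckeU
import Fermat.Prelude.Thm_ModularFormClass_qCoeff_heckeU
import Fermat.Agent.ES.HEQ.DoubleCoset27

set_option autoImplicit false

open Matrix CongruenceSubgroup
open scoped MatrixGroups ModularForm

noncomputable section

namespace Fermat.Agent.T1.U2Lower50

open Fermat.Agent.ES.HEQ.DoubleCoset27

variable {p : ℕ} [hp : Fact p.Prime]

/-! ### The coset combinatorics for `γ` with `p ∣ c` -/

theorem perm_none_of_dvd (γ : SL(2, ℤ)) (h : (p : ℤ) ∣ γ 1 0) :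
    perm γ (none : Option (ZMod p)) = none := by
  obtain ⟨c', hc'⟩ := h
  have hdet : γ 0 0 * γ 1 1 - γ 0 1 * γ 1 0 = 1 := by
    have := γ.2
    rwa [Matrix.det_fin_two] at this
  have hd : γ 0 0 * γ 1 1 - (p : ℤ) * γ 0 1 * c' = 1 := by
    rw [hc'] at hdet; linarith
  let g : SL(2, ℤ) := ⟨!![γ 0 0, (p : ℤ) * γ 0 1; c', γ 1 1], by
    rw [Matrix.det_fin_two_of]; exact hd⟩
  refine (eq_of_beta_mul (γ := γ) (i := none) (k := none) (g := g) ?_).1
  ext i j
  fin_cases i <;> fin_cases j <;>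
    simp [g, beta, Matrix.mul_apply, Fin.sum_univ_two, hc', mul_comm, mul_left_comm]

theorem perm_some_ne_none (γ : SL(2, ℤ)) (h : (p : ℤ) ∣ γ 1 0) (j : ZMod p) :
    perm γ (some j) ≠ none := by
  intro hj
  have h1 : permEquiv γ (some j) = permEquiv γ none := by
    rw [permEquiv_apply, permEquiv_apply, hj, perm_none_of_dvd γ h]
  exact Option.some_ne_none j ((permEquiv γ).injective h1)

/-- the induced permutation of `ZMod p`. -/
def permZ (γ : SL(2, ℤ)) (h : (p : ℤ) ∣ γ 1 0) (j : ZMod p) : ZMod p :=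
  (perm γ (some j)).get (Option.ne_none_iff_isSome.mp (perm_some_ne_none γ h j))

theorem some_permZ (γ : SL(2, ℤ)) (h : (p : ℤ) ∣ γ 1 0) (j : ZMod p) :
    some (permZ γ h j) = perm γ (some j) := by
  simp [permZ]

theorem permZ_bijective (γ : SL(2, ℤ)) (h : (p : ℤ) ∣ γ 1 0) :
    Function.Bijective (permZ γ h) := by
  have : NeZero p := ⟨hp.out.ne_zero⟩
  rw [← Finite.injective_iff_bijective]
  intro j j' hjj
  have : perm γ (some j) = perm γ (some j') := by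
    rw [← some_permZ γ h j, ← some_permZ γ h j', hjj]
  exact Option.some_injective _ ((permEquiv γ).injective this)

theorem coc_some_one_zero (γ : SL(2, ℤ)) (h : (p : ℤ) ∣ γ 1 0) (j : ZMod p) :
    (coc γ (some j) : Matrix (Fin 2) (Fin 2) ℤ) 1 0 = (p : ℤ) * γ 1 0 := by
  have e10 := congrFun (congrFun (beta_mul γ (some j)) 1) 0
  rw [← some_permZ γ h j] at e10
  simp only [Matrix.mul_apply, Fin.sum_univ_two, beta_some, Matrix.of_apply, Matrix.cons_val',
    Matrix.cons_val_zero, Matrix.cons_val_one, Matrix.cons_val_fin_one] at e10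
  simp at e10
  exact e10.symm

theorem coc_some_mem_Gamma0 {N : ℕ} (hpN : p ^ 2 ∣ N) {γ : SL(2, ℤ)} (hγ : γ ∈ Gamma0 (N / p))
    (h : (p : ℤ) ∣ γ 1 0) (j : ZMod p) : coc γ (some j) ∈ Gamma0 N := by
  rw [Gamma0_mem] at hγ ⊢
  rw [coc_some_one_zero γ h j]
  have hpN' : p ∣ N := dvd_trans (dvd_pow_self p two_ne_zero) hpN
  rw [ZMod.intCast_zmod_eq_zero_iff_dvd] at hγ ⊢
  obtain ⟨c', hc'⟩ := hγ
  refine ⟨c', ?_⟩
  rw [hc']
  have : (N : ℤ) = (p : ℤ) * ((N / p : ℕ) : ℤ) := by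
    exact_mod_cast (Nat.mul_div_cancel' hpN').symm
  rw [this]; ring

theorem dvd_of_mem_Gamma0_div {N : ℕ} (hpN : p ^ 2 ∣ N) {γ : SL(2, ℤ)} (hγ : γ ∈ Gamma0 (N / p)) :
    (p : ℤ) ∣ γ 1 0 := by
  rw [Gamma0_mem, ZMod.intCast_zmod_eq_zero_iff_dvd] at hγ
  refine dvd_trans ?_ hγ
  have : p ∣ N / p := by
    obtain ⟨m, hm⟩ := hpN
    refine ⟨m, ?_⟩
    rw [hm, pow_two, mul_assoc, Nat.mul_div_cancel_left _ hp.out.pos]
  exact_mod_cast this


/-! ### Slash invariance of `U_p f` under `Γ₀(N / p)` -/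

open UpperHalfPlane

theorem sum_zmod_val' {M : Type*} [AddCommMonoid M] (F : ℕ → M) :
    ∑ j : ZMod p, F j.val = ∑ i ∈ Finset.range p, F i := by
  obtain ⟨n, hn⟩ := Nat.exists_eq_succ_of_ne_zero hp.out.ne_zero
  subst hn
  rw [Finset.sum_range]
  rfl

theorem heckeU_eq_sum_zmod (k : ℤ) (f : ℍ → ℂ) :
    ModularForm.heckeU k p f = ∑ j : ZMod p, f ∣[k] glBeta p (some j) := by
  rw [ModularForm.heckeU_def]
  exact (sum_zmod_val' (fun i => f ∣[k] ModularForm.heckeMatrix p i)).symm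

theorem heckeU_slash_eq_self_of_mem_Gamma0_div {N : ℕ} (k : ℤ) (hpN : p ^ 2 ∣ N) {f : ℍ → ℂ}
    (hf : ∀ γ ∈ (Gamma0 N : Subgroup (GL (Fin 2) ℝ)), f ∣[k] γ = f)
    (γ : GL (Fin 2) ℝ) (hγ : γ ∈ (Gamma0 (N / p) : Subgroup (GL (Fin 2) ℝ))) :
    (ModularForm.heckeU k p f) ∣[k] γ = ModularForm.heckeU k p f := by
  obtain ⟨γ0, hγ0, rfl⟩ := Subgroup.mem_map.mp hγ
  have hdvd := dvd_of_mem_Gamma0_div hpN hγ0
  rw [heckeU_eq_sum_zmod, SlashAction.sum_slash]
  have h1 : ∀ j : ZMod p, (f ∣[k] glBeta p (some j)) ∣[k] (Matrix.SpecialLinearGroup.mapGL ℝ γ0)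
      = f ∣[k] glBeta p (some (permZ γ0 hdvd j)) := by
    intro j
    rw [← SlashAction.slash_mul, glBeta_mul, SlashAction.slash_mul, some_permZ γ0 hdvd j]
    congr 1
    exact hf _ (Subgroup.mem_map_of_mem _ (coc_some_mem_Gamma0 hpN hγ0 hdvd j))
  rw [Finset.sum_congr rfl fun j _ => h1 j]
  exact Fintype.sum_bijective (permZ γ0 hdvd) (permZ_bijective γ0 hdvd) _ _ fun _ => rfl

end Fermat.Agent.T1.U2Lower50
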