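/-
T1b / U2Lower50 (helper50): `U_p : S_2(Γ₀(N)) → S_2(Γ₀(N / p))` for `p ^ 2 ∣ N` as a cusp form,
its `q`-expansion, and the consequence for normalised eigenforms:
`exists_eigenform_lower`: `p ^ 2 ∣ N`, `a_p(f) ≠ 0`  ⟹  `f` has level `N / p`.
-/
import Mathlib
import Fermat.Agent.T1.U2Lower50.Lower
import Fermat.Prelude.Thm_CongruenceSubgroup_one_mem_strictPeriods_Gamma0

set_option linter.unusedSectionVars false
set_option autoImplicit false
open Matrix CongruenceSubgroup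
open scoped MatrixGroups ModularForm
noncomputable section
namespace Fermat.Agent.T1.U2Lower50
open UpperHalfPlane ModularFormClass
variable {p : ℕ} [hp : Fact p.Prime]

theorem neZero_div {N : ℕ} [NeZero N] (hpN : p ^ 2 ∣ N) : NeZero (N / p) := by
  have hpN' : p ∣ N := dvd_trans (dvd_pow_self p two_ne_zero) hpN
  refine ⟨fun h => ?_⟩
  have := Nat.mul_div_cancel' hpN'
  rw [h, mul_zero] at this
  exact NeZero.ne N this.symm

/-- `U_p : S_k(Γ₀(N)) → S_k(Γ₀(N / p))` for `p ^ 2 ∣ N`. -/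
def heckeULower {N : ℕ} [NeZero N] (k : ℤ) (hpN : p ^ 2 ∣ N) (f : CuspForm (Gamma0 N) k) :
    CuspForm (Gamma0 (N / p)) k :=
  haveI : NeZero (N / p) := neZero_div hpN
  { toFun := ModularForm.heckeU k p ⇑f
    slash_action_eq' := fun γ hγ => heckeU_slash_eq_self_of_mem_Gamma0_div k hpN
      (fun γ hγ => SlashInvariantFormClass.slash_action_eq f γ hγ) γ hγ
    holo' := ModularForm.mdifferentiable_heckeU (CuspFormClass.holo f) k p
    zero_at_cusps' := fun {c} hc => CuspFormClass.isZeroAt_heckeU f p (by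
      rw [Subgroup.IsArithmetic.isCusp_iff_isCusp_SL2Z] at hc ⊢
      exact hc) }

@[simp] theorem coe_heckeULower {N : ℕ} [NeZero N] (k : ℤ) (hpN : p ^ 2 ∣ N)
    (f : CuspForm (Gamma0 N) k) : ⇑(heckeULower k hpN f) = ModularForm.heckeU k p ⇑f := rfl


theorem qCoeff_heckeULower {N : ℕ} [NeZero N] (hpN : p ^ 2 ∣ N)
    (f : CuspForm (Gamma0 N) 2) (n : ℕ) :
    qCoeff (heckeULower 2 hpN f) n = qCoeff f (n * p) := by
  rw [coe_heckeULower, ModularFormClass.qCoeff_heckeU f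
    (CongruenceSubgroup.one_mem_strictPeriods_Gamma0 N) hp.out.ne_zero n]
  rfl

theorem qCoeff_zero_cuspForm {N : ℕ} (f : CuspForm (Gamma0 N) 2) : qCoeff f 0 = 0 :=
  CuspFormClass.qExpansion_coeff_zero f one_pos (CongruenceSubgroup.one_mem_strictPeriods_Gamma0 N)

theorem qCoeff_smul_cuspForm {N : ℕ} (a : ℂ) (f : CuspForm (Gamma0 N) 2) (n : ℕ) :
    qCoeff (⇑(a • f) : ℍ → ℂ) n = a * qCoeff f n := by
  have h0 : (⇑(a • f) : ℍ → ℂ) = a • ⇑f := FunLike.coe_smul a f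
  have := ModularForm.qExpansion_smul one_pos (CongruenceSubgroup.one_mem_strictPeriods_Gamma0 N) a f
  unfold qCoeff
  rw [h0, this]
  simp


theorem qCoeff_prime_pow_succ {N : ℕ} {f : CuspForm (Gamma0 N) 2} (hf : f.IsNormalizedEigenform)
    {q : ℕ} (hq : q.Prime) (hqN : q ∣ N) (r : ℕ) :
    qCoeff f (q ^ (r + 1)) = qCoeff f q * qCoeff f (q ^ r) := by
  cases r with
  | zero => simp [hf.qCoeff_one]
  | succ r => exact hf.qCoeff_prime_pow_of_dvd q r hq hqN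

theorem qCoeff_mul_prime_of_dvd {N : ℕ} {f : CuspForm (Gamma0 N) 2} (hf : f.IsNormalizedEigenform)
    {q : ℕ} (hq : q.Prime) (hqN : q ∣ N) (n : ℕ) :
    qCoeff f (n * q) = qCoeff f n * qCoeff f q := by
  rcases Nat.eq_zero_or_pos n with rfl | hn
  · simp [qCoeff_zero_cuspForm]
  obtain ⟨r, m, hm, rfl⟩ := Nat.exists_eq_pow_mul_and_not_dvd hn.ne' q hq.ne_one
  have hcop : ∀ s : ℕ, (q ^ s).Coprime m := fun s =>
    Nat.Coprime.pow_left s ((Nat.Prime.coprime_iff_not_dvd hq).mpr hm)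
  have h1 : q ^ r * m * q = q ^ (r + 1) * m := by ring
  rw [h1, hf.qCoeff_mul_of_coprime _ _ (hcop (r + 1)), hf.qCoeff_mul_of_coprime _ _ (hcop r),
    qCoeff_prime_pow_succ hf hq hqN r]
  ring


/-- **Level lowering by `U_p`.** A normalised eigenform of level `N` with `p ^ 2 ∣ N` and
`a_p ≠ 0` has level `N / p`. -/
theorem exists_eigenform_lower {N : ℕ} [NeZero N] {f : CuspForm (Gamma0 N) 2}
    (hf : f.IsNormalizedEigenform) (hpN : p ^ 2 ∣ N) (ha : qCoeff f p ≠ 0) :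
    ∃ g : CuspForm (Gamma0 (N / p)) 2, g.IsNormalizedEigenform ∧ ∀ n, qCoeff g n = qCoeff f n := by
  have hpN' : p ∣ N := dvd_trans (dvd_pow_self p two_ne_zero) hpN
  have hpd : p ∣ N / p := by
    obtain ⟨m, hm⟩ := hpN
    refine ⟨m, ?_⟩
    rw [hm, pow_two, mul_assoc, Nat.mul_div_cancel_left _ hp.out.pos]
  have hNeq : N = p * (N / p) := (Nat.mul_div_cancel' hpN').symm
  set g : CuspForm (Gamma0 (N / p)) 2 := (qCoeff f p)⁻¹ • heckeULower 2 hpN f with hg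
  have hq : ∀ n, qCoeff g n = qCoeff f n := by
    intro n
    rw [hg, qCoeff_smul_cuspForm, qCoeff_heckeULower, qCoeff_mul_prime_of_dvd hf hp.out hpN' n]
    field_simp
  have hdvd : ∀ ℓ : ℕ, ℓ.Prime → (ℓ ∣ N ↔ ℓ ∣ N / p) := by
    intro ℓ hℓ
    constructor
    · intro h
      rw [hNeq] at h
      rcases (Nat.Prime.dvd_mul hℓ).mp h with h1 | h1
      · have : ℓ = p := (Nat.prime_dvd_prime_iff_eq hℓ hp.out).mp h1
        rw [this]; exact hpd
      · exact h1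
    · intro h
      exact dvd_trans h (Nat.div_dvd_of_dvd hpN')
  refine ⟨g, ⟨?_, ?_, ?_, ?_⟩, hq⟩
  · rw [hq]; exact hf.qCoeff_one
  · intro m n hmn
    rw [hq, hq, hq]; exact hf.qCoeff_mul_of_coprime m n hmn
  · intro ℓ r hℓ hℓN
    rw [hq, hq, hq, hq]
    exact hf.qCoeff_prime_pow_of_not_dvd ℓ r hℓ (fun h => hℓN ((hdvd ℓ hℓ).mp h))
  · intro ℓ r hℓ hℓN
    rw [hq, hq, hq]
    exact hf.qCoeff_prime_pow_of_dvd ℓ r hℓ ((hdvd ℓ hℓ).mpr hℓN)

end Fermat.Agent.T1.U2Lower50
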